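import Fermat.Agent.A3.H255.LocalClosed

/-!
# S59 / NMP-LGC, leaf MAXUNR, piece LOCAL-ABS⁺ (helper296)

`A3.H799.LocalStatement` (local coordinates on a finite inertia-stable subgroup `T ⊆ Pic0`) with a
TRACKED CLAUSE: the coordinates are constant modulo `𝔪_V` on the kernel of reduction,

    x ∈ T,  x ∈ 𝓡.kerRed   ⟹   Ψ x i - Ψ 0 i ∈ 𝔪_V      for all `i`.

The coordinates are the ones of `A3/H799/Asm.lean` (helper799): class indicators modulo the kernel
of reduction and chart coordinates (with values in `𝔪_V`) on each class; the clause is read off.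

* `LocalPlusStatement`  : the statement;
* `local_of_chart_plus_h296` : CHART + KER-I + LIFTI ⟹ `LocalPlusStatement`;
* `localPlus_h296`      : `LocalPlusStatement`, unconditional (same leaves as
  `A3.H255.localStatement`).
-/

set_option autoImplicit false

noncomputable section

open AlgebraicCurve

namespace Fermat.Agent.S59.NMP.H296

open Fermat.Agent.A3 Fermat.Agent.A3.H799

universe u₁ u₂ u₃ u₄

variable {K : Type u₁} {F : Type u₂} {k : Type u₃} {Fk : Type u₄}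
  [Field K] [Field F] [Algebra K F] [Field k] [Field Fk] [Algebra k Fk]

/-- **LOCAL-ABS⁺**: `A3.H799.LocalStatement` together with the clause "the coordinates are
constant modulo `𝔪_V` on the kernel of reduction". -/
def LocalPlusStatement (K F k Fk : Type*) [Field K] [Field F] [Algebra K F]
    [Field k] [Field Fk] [Algebra k Fk] [IsAlgClosed K] [IsAlgClosed k] [CharZero K] : Prop :=
  ∀ (𝓡 : GoodRed K F k Fk),
    (∀ a b : K, a ∈ 𝓡.V.nonunits → b ≠ 0 → ∃ n : ℕ, a ^ n / b ∈ 𝓡.V) →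
    ∀ (T : AddSubgroup (Pic0 K F)) [Finite T]
      (hT : ∀ g ∈ 𝓡.I, ∀ x ∈ T, g • x ∈ T),
      ∃ (ι : Type) (_ : Finite ι) (Ψ : T → ι → K),
        Function.Injective Ψ ∧ (∀ x i, Ψ x i ∈ 𝓡.V) ∧
        (∀ (g : SemilinearAut K F) (hg : g ∈ 𝓡.I) (x : T) (i : ι),
          Ψ ⟨g • (x : Pic0 K F), hT g hg x x.2⟩ i = SemilinearAut.baseAut g (Ψ x i)) ∧
        (∀ i, (fun p : T × T => Ψ (p.1 + p.2) i) ∈
          Algebra.adjoin 𝓡.V ({f | ∃ j, f = fun p : T × T => Ψ p.1 j} ∪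
            {f | ∃ j, f = fun p : T × T => Ψ p.2 j})) ∧
        ∀ x : T, (x : Pic0 K F) ∈ 𝓡.kerRed → ∀ i, Ψ x i - Ψ 0 i ∈ 𝓡.V.nonunits

theorem sub_mem_nonunits_h296 (V : ValuationSubring K) {a b : K} (ha : a ∈ V.nonunits)
    (hb : b ∈ V.nonunits) : a - b ∈ V.nonunits := by
  rw [ValuationSubring.mem_nonunits_iff] at ha hb ⊢
  exact lt_of_le_of_lt (Valuation.map_sub _ a b) (max_lt ha hb)

theorem zero_mem_nonunits'_h296 (V : ValuationSubring K) : (0 : K) ∈ V.nonunits := by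
  rw [ValuationSubring.mem_nonunits_iff, map_zero]
  exact zero_lt_one

theorem coe_maximalIdeal_mem_nonunits_h296 (V : ValuationSubring K)
    (a : IsLocalRing.maximalIdeal V) : (((a : IsLocalRing.maximalIdeal V) : V) : K) ∈ V.nonunits :=
  ValuationSubring.coe_mem_nonunits_iff.mpr a.2

section Clause

variable {𝓡 : GoodRed K F k Fk} {T : AddSubgroup (Pic0 K F)} {n : ℕ}
  (z : 𝓡.kerRed → Fin n → IsLocalRing.maximalIdeal 𝓡.V) (yt : T ⧸ tKer 𝓡 T → Pic0 K F)
  (hmem : ∀ (x : T) (c : T ⧸ tKer 𝓡 T), (QuotientAddGroup.mk x : T ⧸ tKer 𝓡 T) = c →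
    (x : Pic0 K F) - yt c ∈ 𝓡.kerRed)

open Classical in
/-- **The clause for the coordinates `psi₀`.** -/
theorem psi₀_sub_zero_mem_nonunits_h296 (x : T) (hx : (x : Pic0 K F) ∈ 𝓡.kerRed)
    (j : (T ⧸ tKer 𝓡 T) ⊕ (T ⧸ tKer 𝓡 T) × Fin n) :
    psi₀ z yt hmem x j - psi₀ z yt hmem 0 j ∈ 𝓡.V.nonunits := by
  have hmk : (QuotientAddGroup.mk x : T ⧸ tKer 𝓡 T) = QuotientAddGroup.mk (0 : T) := by
    rw [mk_eq_mk_iff, AddSubgroup.coe_zero, sub_zero]
    exact hx
  rcases j with c | ⟨c, i⟩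
  · rw [psi₀_inl, psi₀_inl, hmk, sub_self]
    exact zero_mem_nonunits'_h296 𝓡.V
  · by_cases h : (QuotientAddGroup.mk x : T ⧸ tKer 𝓡 T) = c
    · have h0 : (QuotientAddGroup.mk (0 : T) : T ⧸ tKer 𝓡 T) = c := by rw [← hmk, h]
      rw [psi₀_inr_pos z yt hmem x c i h, psi₀_inr_pos z yt hmem 0 c i h0]
      exact sub_mem_nonunits_h296 𝓡.V (coe_maximalIdeal_mem_nonunits_h296 𝓡.V _)
        (coe_maximalIdeal_mem_nonunits_h296 𝓡.V _)
    · have h0 : ¬ (QuotientAddGroup.mk (0 : T) : T ⧸ tKer 𝓡 T) = c := by rw [← hmk]; exact h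
      rw [psi₀_inr_neg z yt hmem x c i h, psi₀_inr_neg z yt hmem 0 c i h0, sub_self]
      exact zero_mem_nonunits'_h296 𝓡.V

end Clause

section Main

variable [IsAlgClosed K] [IsAlgClosed k] [CharZero K]

/-- **Assembly with the clause.**  CHART + KER-I + LIFTI ⟹ `LocalPlusStatement`
(the proof of `A3.H799.local_of_chart`, with one more field). -/
theorem local_of_chart_plus_h296 (hchart : ChartStatement.{u₁, u₂, u₃, u₄, u₂} K F k Fk)
    (hker : KerInertiaStatement K F k Fk) (hlift : LiftiStatement K F k Fk) :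
    LocalPlusStatement K F k Fk := by
  classical
  intro 𝓡 _ T _ hT
  obtain ⟨n, z, hzinj, hzeq, hzadd⟩ := hchart 𝓡
  have hl : ∀ c : T ⧸ tKer 𝓡 T, ∃ y : Pic0 K F, (∀ g ∈ 𝓡.I, g • y = y) ∧
      ((Quotient.out c : T) : Pic0 K F) - y ∈ 𝓡.kerRed := fun c => hlift 𝓡 _
  choose yt hyI hyJ using hl
  have hmem : ∀ (x : T) (c : T ⧸ tKer 𝓡 T), (QuotientAddGroup.mk x : T ⧸ tKer 𝓡 T) = c →
      (x : Pic0 K F) - yt c ∈ 𝓡.kerRed := by
    intro x c h
    have h1 := sub_out_mem x c h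
    have h2 : (x : Pic0 K F) - yt c = ((x : Pic0 K F) - ((Quotient.out c : T) : Pic0 K F)) +
        (((Quotient.out c : T) : Pic0 K F) - yt c) := by abel
    rw [h2]
    exact add_mem h1 (hyJ c)
  -- the index type
  haveI : Finite (T ⧸ tKer 𝓡 T) := inferInstance
  haveI : Finite ((T ⧸ tKer 𝓡 T) ⊕ (T ⧸ tKer 𝓡 T) × Fin n) := inferInstance
  obtain ⟨m, ⟨e⟩⟩ := Finite.exists_equiv_fin ((T ⧸ tKer 𝓡 T) ⊕ (T ⧸ tKer 𝓡 T) × Fin n)
  refine ⟨Fin m, inferInstance, fun x i => psi₀ z yt hmem x (e.symm i), ?_, ?_, ?_, ?_, ?_⟩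
  · intro x x' h
    apply psi₀_injective z yt hmem hzinj
    funext j
    have := congrFun h (e j)
    simpa using this
  · intro x i
    exact psi₀_mem z yt hmem x _
  · intro g hg x i
    exact psi₀_smul z yt hmem (hker 𝓡) hyI hzeq g hg x _ _
  · intro i
    have := psi₀_add_mem z yt hmem (fun Λ a b => hzadd (T × T) Λ a b) (e.symm i)
    refine Algebra.adjoin_mono ?_ this
    rintro f (⟨j, rfl⟩ | ⟨j, rfl⟩)
    · left
      exact ⟨e j, by simp⟩
    · right
      exact ⟨e j, by simp⟩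
  · intro x hx i
    exact psi₀_sub_zero_mem_nonunits_h296 z yt hmem x hx (e.symm i)

/-- **LOCAL-ABS⁺ from DET.** -/
theorem localPlus_of_det_h296 (hdet : DetStatement K F k Fk) : LocalPlusStatement K F k Fk :=
  local_of_chart_plus_h296 (chartStatement_of_det hdet) H555.kerInertiaStatement
    (H555.liftiStatement_of_disc (H75.discStatement K F k Fk) H555.discEquivStatement)

end Main

end Fermat.Agent.S59.NMP.H296

namespace Fermat.Agent.S59.NMP.H296

universe v₁ v₂ v₃ v₄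

/-- **LOCAL-ABS⁺**, unconditional. -/
theorem localPlus_h296 {K : Type v₁} {F : Type v₂} {k : Type v₃} {Fk : Type v₄}
    [Field K] [Field F] [Algebra K F] [Field k] [Field Fk] [Algebra k Fk]
    [IsAlgClosed K] [IsAlgClosed k] [CharZero K] : LocalPlusStatement K F k Fk :=
  localPlus_of_det_h296 Fermat.Agent.A3.H255.Det.detStatement

end Fermat.Agent.S59.NMP.H296
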