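import Fermat.Agent.S59.NMP.H296.MaxUnrC
import Fermat.Agent.S56.FO.H6.CEMain
import Fermat.Agent.A3.H319.Fin

/-!
# S59 / NMP-LGC, leaf MAXUNR at good levels (helper296)

For a prime `ℓ ∤ N` at a good level (`5 ≤ ℓ`, or `ℓ = 3 ∧ 2 ∣ N`, or `ℓ = 2 ∧ 3 ∣ N`) and a
valuation ring `V` of `ℚ̄` above `ℓ`:

* `exists_hopfLattice_redKer_h296` : the torsion `J₀(N)[ℓ^e]` carries a Hopf lattice `Λ` over
  `ℤ_(ℓ)` which is COMPATIBLE WITH SPECIALISATION:
  `reductionModL V N x = 0 ⟹ f x ≡ f 0 mod 𝔪_V` for all `f ∈ Λ`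
  (S19⁺ = the S19 pipeline LOCAL → UNR → ORD with a tracked clause);
* `maxUnr_tors_h296`, `maxUnr_h296` (**MAXUNR**, `ℓ` odd): the kernel of specialisation on
  `J₀(N)[ℓ]` is contained in the inertia augmentation `(I_V - 1) J₀(N)[ℓ]`, i.e. the image of
  specialisation is the maximal unramified quotient of `J₀(N)[ℓ]`
  (connected–étale: `S56.FO.H6.connEt`).
-/

set_option autoImplicit false
set_option synthInstance.maxHeartbeats 400000
set_option linter.style.haveILetI false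

noncomputable section

namespace Fermat.Agent.S59.NMP.H296

open ModularCurve AlgebraicCurve IsLocalRing
open Fermat.Agent.S19 (GalQ GoodLevel Tors torsAct torsAct_add CoordDatum OrderDatum Rl)
open Fermat.Agent.S37.Red (Qb)

/-- **S19⁺.**  A Hopf lattice on `J₀(N)[ℓ^e]` compatible with the specialisation at `V`. -/
theorem exists_hopfLattice_redKer_h296 (N : ℕ) [NeZero N] (ℓ : ℕ) [Fact ℓ.Prime]
    (hℓN : ¬ ℓ ∣ N) (hg : GoodLevel N ℓ) (V : ValuationSubring Qb) (hV : V.LiesOverPrime ℓ)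
    (e : ℕ) :
    ∃ Λ : Subalgebra (Rl ℓ) (Tors N ℓ e → Qb),
      Fermat.Agent.S19.H435.IsHopfLattice ℓ (torsAct N ℓ e) Λ ∧
      ∀ x : Tors N ℓ e, reductionModL V N (x : JZero N) = 0 →
        ∀ f ∈ Λ, V.valuation (f x - f 0) < 1 := by
  haveI : Finite (Tors N ℓ e) := Fermat.Agent.A3.H319.finStatement N ℓ e
  obtain ⟨C, hC⟩ := coordPlus_h296 N ℓ hℓN hg V hV e
  set D : OrderDatum ℓ (Tors N ℓ e) (torsAct N ℓ e) :=
    orderDatumOfCoord_h296 (torsAct_add N ℓ e) C with hD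
  have hΛ := isHopfLattice_ordAlg_h296 D
  refine ⟨Fermat.Agent.S19.H15.ordAlg D, hΛ, fun x hx f hf => ?_⟩
  have hval : ∀ g ∈ Fermat.Agent.S19.H15.ordAlg D, ∀ m, g m ∈ V := fun g hg m =>
    Fermat.Agent.S56.H906.apply_mem V hΛ hV hg m
  have key : ∀ g ∈ Fermat.Agent.S19.H15.ordAlg D, g x - g 0 ∈ V.nonunits := by
    intro g hg
    unfold Fermat.Agent.S19.H15.ordAlg at hg
    induction hg using Algebra.adjoin_induction with
    | mem φ hφ =>
      obtain ⟨i, rfl⟩ := hφ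
      exact hC x hx i
    | algebraMap r =>
      have : (algebraMap (Rl ℓ) (Tors N ℓ e → Qb) r) x -
          (algebraMap (Rl ℓ) (Tors N ℓ e → Qb) r) 0 = 0 := sub_self _
      rw [this]
      exact zero_mem_nonunits_h296 V
    | add f g hf hg ihf ihg =>
      have : (f + g) x - (f + g) 0 = (f x - f 0) + (g x - g 0) := by
        simp only [Pi.add_apply]; ring
      rw [this]
      exact add_mem_nonunits_h296 V ihf ihg
    | mul f g hf hg ihf ihg =>
      have : (f * g) x - (f * g) 0 = (f x - f 0) * g x + f 0 * (g x - g 0) := by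
        simp only [Pi.mul_apply]; ring
      rw [this]
      exact add_mem_nonunits_h296 V
        (mul_mem_nonunits_left_h296 V ihf (hval g hg x))
        (mul_mem_nonunits_right_h296 V (hval f hf 0) ihg)
  exact (ValuationSubring.mem_nonunits_iff V).mp (key f hf)

/-- **MAXUNR on the torsion module** (good level, `ℓ` odd): a point of `J₀(N)[ℓ]` killed by the
specialisation at `V` lies in the inertia augmentation of `J₀(N)[ℓ]`. -/
theorem maxUnr_tors_h296 (N : ℕ) [NeZero N] (ℓ : ℕ) [Fact ℓ.Prime] (hℓ2 : ℓ ≠ 2)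
    (hℓN : ¬ ℓ ∣ N) (hg : GoodLevel N ℓ) (V : ValuationSubring Qb) (hV : V.LiesOverPrime ℓ)
    (x : Tors N ℓ 1) (hx : reductionModL V N (x : JZero N) = 0) :
    x ∈ AddSubgroup.closure
      {z : Tors N ℓ 1 | ∃ σ ∈ V.inertiaSubgroupIn ℚ, ∃ y : Tors N ℓ 1,
        z = torsAct N ℓ 1 σ y - y} := by
  haveI : Finite (Tors N ℓ 1) := Fermat.Agent.A3.H319.finStatement N ℓ 1
  obtain ⟨Λ, hΛ, hcl⟩ := exists_hopfLattice_redKer_h296 N ℓ hℓN hg V hV 1
  have hkill : ∀ y : Tors N ℓ 1, ℓ • y = 0 := by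
    intro y
    have h := pow_nsmul_eq_zero_h296 N ℓ 1 y
    rw [pow_one] at h
    exact Subtype.ext (by rw [Submodule.coe_smul_of_tower]; exact h)
  exact Fermat.Agent.S56.FO.H6.connEt ℓ hℓ2 (Tors N ℓ 1) (torsAct N ℓ 1) Λ hΛ hkill V hV x
    (hcl x hx)

end Fermat.Agent.S59.NMP.H296
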