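import Fermat.Agent.S59.NMP.H296.LocalPlus
import Fermat.Agent.A3.H615.GrFinal
import Fermat.Agent.S37.Core.Inst

/-!
# S59 / NMP-LGC, leaf MAXUNR, piece GR-LINK (helper296)

Local coordinates on the torsion `J₀(N)[ℓ^e]` at a good level, at a GIVEN valuation ring `V ∣ ℓ`
(`ℓ ∤ N`), with the tracked clause in terms of the Prelude reduction map:

    reductionModL V N x = 0   ⟹   Ψ x i - Ψ 0 i ∈ 𝔪_V.

The `GoodRed` datum is `A3.H739.goodRedOfLeaves` for the place map `r` of `A3.H615.GrRed.redLeaf`;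
on torsion classes the reduction map does not depend on the place map
(`S37.Core.reductionPic0Along_eq_of_nsmul_eq_zero`), so the kernel of `reductionModL` inside the
torsion is the kernel of reduction `𝓡.kerRed` of the datum.
-/

set_option autoImplicit false
set_option synthInstance.maxHeartbeats 400000

noncomputable section

namespace Fermat.Agent.S59.NMP.H296

open ModularCurve AlgebraicCurve HahnSeries IsLocalRing
open Fermat.Agent.S19 (GalQ IsInertiaAt GoodLevel Tors torsAct LocalCoordDatum)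
open Fermat.Agent.S19.H979 (torsSubgroup torsEquiv smul_mem_torsSubgroup rankOneStatement)
open Fermat.Agent.S37.Red (Qb FN kA FNk)
open Fermat.Agent.A3.H739

/-- On a torsion class, vanishing of the Prelude reduction map gives a divisor whose reduction
(along ANY place reduction map `r`) is principal. -/
theorem exists_div_of_reductionModL_eq_zero_h296 {N : ℕ} [NeZero N] {V : ValuationSubring Qb}
    (hin : ReductionInputsModL V N)
    (r : Place Qb (FN N) → Place (kA V) (FNk V N)) (hr : IsPlaceReductionModL V N r)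
    {m : ℕ} (hm : m ≠ 0) (x : JZero N) (hmx : m • x = 0) (hx : reductionModL V N x = 0) :
    ∃ D : Divisor.degZero (K := Qb) (F := FN N), Pic0.mk D = x ∧
      Finsupp.mapDomain r (D : Divisor Qb (FN N)) ∈
        Divisor.principal (K := kA V) (F := FNk V N) := by
  have hgen : PrincipalGeneratedByIntegral V (residue V) N := hin.choose_spec.2
  have h1 : reductionPic0Along r hr hgen x = 0 := by
    have h2 : reductionModL V N x = reductionPic0Along hin.choose hin.choose_spec.1 hgen x := by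
      show reductionAlong V (residue V) N x = _
      rw [reductionAlong_eq hin]
    rw [Fermat.Agent.S37.Core.reductionPic0Along_eq_of_nsmul_eq_zero hr hin.choose_spec.1 hgen
      hm hmx, ← h2, hx]
  obtain ⟨D, rfl⟩ := Pic0.mk_surjective x
  refine ⟨D, rfl, ?_⟩
  rw [reductionPic0Along_mk] at h1
  have h3 := (QuotientAddGroup.eq_zero_iff _).1 h1
  rw [AddSubgroup.mem_addSubgroupOf, coe_reductionDegZeroAlong] at h3
  exact h3

/-- **GR-LINK, abstract form.**  Local coordinates on `J₀(N)[ℓ^e]` from ANY `GoodRed` datum of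
`X₀(N)`, constant modulo `𝔪_V` on every set of classes of the kernel of reduction. -/
theorem localCoord_of_goodRed_h296 (N : ℕ) [NeZero N] (ℓ : ℕ) [Fact ℓ.Prime] (e : ℕ)
    [hfin : Finite (Tors N ℓ e)] {k : Type} [Field k] [IsAlgClosed k] {Fk : Type} [Field Fk]
    [Algebra k Fk] (𝓡 : Fermat.Agent.A3.H799.GoodRed Qb (FN N) k Fk)
    (hℓ : (ℓ : Qb) ∈ 𝓡.V.nonunits)
    (hI : ∀ σ : GalQ, IsInertiaAt 𝓡.V σ →
      arithmeticGalois (modularFunctionFieldFull N) σ ∈ 𝓡.I)
    (K₀ : Set (Tors N ℓ e))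
    (hK₀ : ∀ x ∈ K₀, ((x : Tors N ℓ e) : Pic0 Qb (FN N)) ∈ 𝓡.kerRed) :
    ∃ L : LocalCoordDatum ℓ (Tors N ℓ e) (torsAct N ℓ e), L.V = 𝓡.V ∧
      ∀ x ∈ K₀, ∀ i, L.Ψ x i - L.Ψ 0 i ∈ 𝓡.V.nonunits := by
  have hrank : ∀ a b : Qb, a ∈ 𝓡.V.nonunits → b ≠ 0 → ∃ n : ℕ, a ^ n / b ∈ 𝓡.V :=
    rankOneStatement ℓ 𝓡.V hℓ
  haveI : Finite (torsSubgroup N ℓ e) := Finite.of_equiv _ (torsEquiv N ℓ e).toEquiv
  have hT : ∀ g ∈ 𝓡.I, ∀ x ∈ torsSubgroup N ℓ e, g • x ∈ torsSubgroup N ℓ e :=
    fun g _ x hx => smul_mem_torsSubgroup N ℓ e g x hx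
  obtain ⟨ι, hι, Ψ, hinj, hint, heq, hadd, hcl⟩ :=
    localPlus_h296 (K := Qb) (F := FN N) (k := k) (Fk := Fk) 𝓡 hrank
      (torsSubgroup N ℓ e) hT
  refine ⟨{ V := 𝓡.V
            ell_mem := hℓ
            ι := ι
            fin := hι
            Ψ := fun m => Ψ (torsEquiv N ℓ e m)
            inj := fun m m' h => (torsEquiv N ℓ e).injective (hinj h)
            integral := fun m i => hint _ i
            equivariant := ?_
            add_mem := ?_ }, rfl, ?_⟩
  · intro σ hσ m i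
    exact heq (arithmeticGalois (modularFunctionFieldFull N) σ) (hI σ hσ) (torsEquiv N ℓ e m) i
  · intro i
    -- pull back along `torsEquiv × torsEquiv`
    let φ : (torsSubgroup N ℓ e × torsSubgroup N ℓ e → Qb) →ₐ[𝓡.V]
        (Tors N ℓ e × Tors N ℓ e → Qb) :=
      { toFun := fun G p => G (torsEquiv N ℓ e p.1, torsEquiv N ℓ e p.2)
        map_one' := rfl
        map_mul' := fun _ _ => rfl
        map_zero' := rfl
        map_add' := fun _ _ => rfl
        commutes' := fun _ => rfl }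
    have h1 := Subalgebra.mem_map.2 ⟨_, hadd i, (rfl : φ _ = φ _)⟩
    rw [AlgHom.map_adjoin] at h1
    have h2 : (fun p : Tors N ℓ e × Tors N ℓ e => Ψ (torsEquiv N ℓ e (p.1 + p.2)) i) =
        φ (fun p : torsSubgroup N ℓ e × torsSubgroup N ℓ e => Ψ (p.1 + p.2) i) := by
      funext p
      show Ψ (torsEquiv N ℓ e (p.1 + p.2)) i = Ψ (torsEquiv N ℓ e p.1 + torsEquiv N ℓ e p.2) i
      rw [map_add]
    rw [h2]
    refine Algebra.adjoin_mono ?_ h1
    rintro _ ⟨g, (⟨j, rfl⟩ | ⟨j, rfl⟩), rfl⟩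
    · exact Or.inl ⟨j, rfl⟩
    · exact Or.inr ⟨j, rfl⟩
  · intro x hx i
    have h0 := hcl (torsEquiv N ℓ e x) (hK₀ x hx) i
    rw [← map_zero (torsEquiv N ℓ e)] at h0
    exact h0

/-- The torsion hypothesis in `ℕ`-form. -/
theorem pow_nsmul_eq_zero_h296 (N ℓ e : ℕ) (x : Tors N ℓ e) :
    (ℓ ^ e) • (x : JZero N) = 0 := by
  have h := (Submodule.mem_torsionBy_iff _ _).1 x.2
  rw [← natCast_zsmul]
  push_cast
  exact h

end Fermat.Agent.S59.NMP.H296
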