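import Fermat.Agent.S59.NMP.H296.MaxUnrA

/-!
# S59 / NMP-LGC, leaf MAXUNR, piece GR-LINK, instance (helper296)

`localCoordPlus_h296`: local coordinates on `J₀(N)[ℓ^e]` at a good level and at a GIVEN valuation
ring `V ∣ ℓ` (`ℓ ∤ N`), constant modulo `𝔪_V` on the kernel of `reductionModL V N`.
-/

set_option autoImplicit false
set_option synthInstance.maxHeartbeats 400000

noncomputable section

namespace Fermat.Agent.S59.NMP.H296

open ModularCurve AlgebraicCurve HahnSeries IsLocalRing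
open Fermat.Agent.S19 (GalQ IsInertiaAt GoodLevel Tors torsAct LocalCoordDatum)
open Fermat.Agent.S37.Red (Qb FN kA FNk)
open Fermat.Agent.A3.H739

/-- The kernel of `reductionModL` inside the torsion lies in the kernel of reduction of the
`GoodRed` datum `goodRedOfLeaves` (for any place map `r`). -/
theorem mem_kerRed_goodRedOfLeaves_h296 (N : ℕ) [NeZero N] {ℓ : ℕ} [Fact ℓ.Prime]
    (hℓN : ¬ ℓ ∣ N) (V : ValuationSubring Qb) (hV : V.LiesOverPrime ℓ)
    (r : Place Qb (FN N) → Place (kA V) (FNk V N)) (hr : IsPlaceReductionModL V N r)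
    (hrI : ∀ σ : GalQ, IsInertiaAt V σ → ∀ P : Place Qb (FN N),
        r (arithmeticGalois (modularFunctionFieldFull N) σ • P) = r P)
    (hgen : GenusLeaf N V) (horth : OrthLeaf N V (gr_vg N hℓN V hV))
    (hin : ReductionInputsModL V N) (e : ℕ) (x : Tors N ℓ e)
    (hx : reductionModL V N (x : JZero N) = 0) :
    ((x : Tors N ℓ e) : Pic0 Qb (FN N)) ∈
      (goodRedOfLeaves N hℓN V hV r hr hrI hgen horth).kerRed := by
  have hℓ : ℓ.Prime := Fact.out
  obtain ⟨D, hD, hDp⟩ := exists_div_of_reductionModL_eq_zero_h296 hin r hr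
    (pow_ne_zero e hℓ.ne_zero) (x : JZero N) (pow_nsmul_eq_zero_h296 N ℓ e x) hx
  exact ⟨D, hD, hDp⟩

/-- **GR-LINK.**  Local coordinates on `J₀(N)[ℓ^e]` at a good level and at a GIVEN valuation ring
`V ∣ ℓ`, constant modulo `𝔪_V` on the kernel of the reduction map `reductionModL V N`. -/
theorem localCoordPlus_h296 (N : ℕ) [NeZero N] (ℓ : ℕ) [Fact ℓ.Prime] (hℓN : ¬ ℓ ∣ N)
    (hg : GoodLevel N ℓ) (V : ValuationSubring Qb) (hV : V.LiesOverPrime ℓ) (e : ℕ)
    [hfin : Finite (Tors N ℓ e)] :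
    ∃ L : LocalCoordDatum ℓ (Tors N ℓ e) (torsAct N ℓ e), L.V = V ∧
      ∀ x : Tors N ℓ e, reductionModL V N (x : JZero N) = 0 →
        ∀ i, L.Ψ x i - L.Ψ 0 i ∈ V.nonunits := by
  have hℓ : ℓ.Prime := Fact.out
  obtain ⟨r, hr, hrI⟩ := Fermat.Agent.A3.H615.GrRed.redLeaf N ℓ hℓN hg V hV
  have horth := Fermat.Agent.A3.H499.orthLeaf N hℓN V hV (gr_vg N hℓN V hV)
  have hgen := Fermat.Agent.A3.H615.GrGenus.genusLeaf_of_orthLeaf N ℓ hℓN hg V hV horth
  have hin : ReductionInputsModL V N :=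
    Fermat.Agent.S37.Core.rimStatement N ℓ hℓ hℓN hg V hV
  haveI : IsAlgClosed (kA V) := Fermat.Agent.S18.H9.resAlgClosed Qb V
  obtain ⟨L, hLV, hL⟩ := localCoord_of_goodRed_h296 N ℓ e
    (goodRedOfLeaves N hℓN V hV r hr hrI hgen horth) hV
    (fun σ hσ => arithmeticGalois_mem_inertiaImage V N hσ)
    {x : Tors N ℓ e | reductionModL V N (x : JZero N) = 0}
    (fun x hx => mem_kerRed_goodRedOfLeaves_h296 N hℓN V hV r hr hrI hgen horth hin e x hx)
  exact ⟨L, hLV, fun x hx i => hL x hx i⟩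

end Fermat.Agent.S59.NMP.H296
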