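import Fermat.Agent.S19.H679.Main

/-!
# S59 / NMP-LGC, leaf MAXUNR, piece UNR⁺ (helper296)

`S19.H679.unrStatementH679` (unramified descent of local coordinates) with a TRACKED CLAUSE.

Let `L` be a local coordinate datum at the valuation ring `V` and `K₀ ⊆ M` a subset which is stable
under the decomposition group of `V` (e.g. the kernel of the specialisation map at `V`).  If the
local coordinates are constant modulo `𝔪_V` on `K₀`, i.e. `Ψ x i - Ψ 0 i ∈ 𝔪_V` for `x ∈ K₀`, then
the GLOBAL coordinates produced by the descent have the same property.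

* `sub_mem_nonunits_of_mem_Hloc_h296` : the clause for every function of the local algebra `Hloc`;
* `unrPlus_h296` : the descent with the clause.

The proof of `unrPlus_h296` is the proof of `unrStatementH679` (helper679), with one more field.
-/

set_option autoImplicit false

namespace Fermat.Agent.S59.NMP.H296

open Fermat.Agent.S19 Fermat.Agent.S19.H679
open Fermat.Agent.S54 Fermat.Agent.S55.Bridge

attribute [local instance] isAlgebraic_Qbar isGalois_Qbar

variable {ℓ : ℕ} {M : Type} [AddCommGroup M] {act : GalQ → M → M}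

theorem act_zero_h296 (hact : IsContAddAction act) (σ : GalQ) : act σ 0 = 0 := by
  have h := hact.act_add σ 0 0
  rw [add_zero] at h
  exact left_eq_add.mp h

theorem zero_mem_nonunits_h296 (V : ValuationSubring Qb) : (0 : Qb) ∈ V.nonunits := by
  rw [ValuationSubring.mem_nonunits_iff, map_zero]
  exact zero_lt_one

theorem add_mem_nonunits_h296 (V : ValuationSubring Qb) {a b : Qb} (ha : a ∈ V.nonunits)
    (hb : b ∈ V.nonunits) : a + b ∈ V.nonunits := by
  rw [ValuationSubring.mem_nonunits_iff] at ha hb ⊢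
  exact lt_of_le_of_lt (V.valuation.map_add a b) (max_lt ha hb)

theorem mul_mem_nonunits_left_h296 (V : ValuationSubring Qb) {a b : Qb} (ha : a ∈ V.nonunits)
    (hb : b ∈ V) : a * b ∈ V.nonunits := by
  rw [ValuationSubring.mem_nonunits_iff] at ha ⊢
  rw [map_mul]
  have hb' : V.valuation b ≤ 1 := (V.valuation_le_one_iff b).mpr hb
  exact lt_of_le_of_lt (mul_le_of_le_one_right' hb') ha

theorem mul_mem_nonunits_right_h296 (V : ValuationSubring Qb) {a b : Qb} (ha : a ∈ V)
    (hb : b ∈ V.nonunits) : a * b ∈ V.nonunits := by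
  rw [mul_comm]
  exact mul_mem_nonunits_left_h296 V hb ha

/-- **The clause on the local algebra.**  If the local coordinates are constant modulo `𝔪_V` on a
`D_V`-stable set `K₀`, so is every function of `Hloc`. -/
theorem sub_mem_nonunits_of_mem_Hloc_h296 (hact : IsContAddAction act)
    (L : LocalCoordDatum ℓ M act) (K₀ : Set M)
    (hK : ∀ δ ∈ L.V.decompositionSubgroup ℚ, ∀ x ∈ K₀, act δ x ∈ K₀)
    (hΨ : ∀ x ∈ K₀, ∀ i, L.Ψ x i - L.Ψ 0 i ∈ L.V.nonunits)
    {f : M → Qb} (hf : f ∈ HlocH679 L) : ∀ x ∈ K₀, f x - f 0 ∈ L.V.nonunits := by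
  have hval : ∀ g ∈ HlocH679 L, ∀ m, g m ∈ L.V := fun g hg m => Hloc_le_valuedH679 L hg m
  unfold HlocH679 at hf
  induction hf using Algebra.adjoin_induction with
  | mem φ hφ =>
    obtain ⟨δ, hδ, i, rfl⟩ := hφ
    intro x hx
    have h1 : starH679 act δ (psiH679 L i) x - starH679 act δ (psiH679 L i) 0 =
        δ (L.Ψ (act δ⁻¹ x) i - L.Ψ 0 i) := by
      rw [map_sub]
      show δ (L.Ψ (act δ⁻¹ x) i) - δ (L.Ψ (act δ⁻¹ 0) i) = _
      rw [act_zero_h296 hact]
    rw [h1]
    exact (mem_nonunits_decompH679 hδ _).2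
      (hΨ _ (hK δ⁻¹ ((L.V.decompositionSubgroup ℚ).inv_mem hδ) x hx) i)
  | algebraMap r =>
    intro x _
    have : (algebraMap L.V (M → Qb) r) x - (algebraMap L.V (M → Qb) r) 0 = 0 := sub_self _
    rw [this]
    exact zero_mem_nonunits_h296 L.V
  | add f g hf hg ihf ihg =>
    intro x hx
    have : (f + g) x - (f + g) 0 = (f x - f 0) + (g x - g 0) := by
      simp only [Pi.add_apply]; ring
    rw [this]
    exact add_mem_nonunits_h296 L.V (ihf x hx) (ihg x hx)
  | mul f g hf hg ihf ihg =>
    intro x hx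
    have : (f * g) x - (f * g) 0 = (f x - f 0) * g x + f 0 * (g x - g 0) := by
      simp only [Pi.mul_apply]; ring
    rw [this]
    exact add_mem_nonunits_h296 L.V
      (mul_mem_nonunits_left_h296 L.V (ihf x hx) (hval g hg x))
      (mul_mem_nonunits_right_h296 L.V (hval f hf 0) (ihg x hx))

/-- **UNR⁺**: unramified descent of local coordinates, with the tracked clause.  The global
coordinates `C.Φ` are constant modulo `𝔪_V` on every `D_V`-stable set `K₀` on which the local
coordinates `L.Ψ` are. -/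
theorem unrPlus_h296 (ℓ : ℕ) [hℓfact : Fact ℓ.Prime] (M : Type) [AddCommGroup M] [Finite M]
    (act : GalQ → M → M) (hact : IsContAddAction act) (L : LocalCoordDatum ℓ M act)
    (K₀ : Set M)
    (hK : ∀ δ ∈ L.V.decompositionSubgroup ℚ, ∀ x ∈ K₀, act δ x ∈ K₀)
    (hΨ : ∀ x ∈ K₀, ∀ i, L.Ψ x i - L.Ψ 0 i ∈ L.V.nonunits) :
    ∃ C : CoordDatum ℓ M act, ∀ x ∈ K₀, ∀ k : C.ι, C.Φ x k - C.Φ 0 k ∈ L.V.nonunits := by
  classical
  have hℓ : ℓ.Prime := hℓfact.out
  have hA := isActH679_of_cont hact
  have hspan : Submodule.span L.V (invSetH679 L) = Subalgebra.toSubmodule (HlocH679 L) :=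
    le_antisymm (Submodule.span_le.2 fun h hh => hh.1) (Hloc_le_span_invH679 hℓ hact L)
  obtain ⟨Λ⟩ := exists_levelDataH679 hact L
  obtain ⟨F, hF1, hF2, hF3⟩ :=
    exists_minimal_spanningH679 (invSetH679 L) _ (Hloc_fgH679 hact L Λ) hspan
  have hind := indep_of_minimalH679 L.V F hF3
  have hFinv : ∀ k : ↥F, ∀ σ : GalQ, starH679 act σ (k : M → Qb) = k := fun k σ =>
    (hF1 k.2).2 σ
  have hFH : ∀ k : ↥F, (k : M → Qb) ∈ HlocH679 L := fun k => (hF1 k.2).1
  have hFV : ∀ (k : ↥F) (m : M), (k : M → Qb) m ∈ L.V := fun k m =>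
    Hloc_le_valuedH679 L (hFH k) m
  have hFeq : ∀ (k : ↥F) (σ : GalQ) (m : M), (k : M → Qb) (act σ m) = σ ((k : M → Qb) m) :=
    fun k σ m => (starH679_eq_self_iff hA σ _).1 (hFinv k σ) m
  refine ⟨{ ι := ↥F
            fin := inferInstance
            Φ := fun m k => (k : M → Qb) m
            inj := ?_
            equivariant := fun σ m k => hFeq k σ m
            integral := ?_
            add_mem := ?_ }, ?_⟩
  · -- injectivity
    intro m m' h
    apply L.inj
    funext i
    have hsub : Submodule.span L.V (F : Set (M → Qb)) ≤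
        LinearMap.ker ((LinearMap.proj m : (M → Qb) →ₗ[L.V] Qb) - LinearMap.proj m') := by
      rw [Submodule.span_le]
      intro f hf
      rw [SetLike.mem_coe, LinearMap.mem_ker, LinearMap.sub_apply, sub_eq_zero]
      exact congrFun h ⟨f, hf⟩
    have h1 : psiH679 L i ∈ Submodule.span L.V (F : Set (M → Qb)) := by
      rw [hF2]
      exact psi_mem_HlocH679 hact L i
    have h2 := hsub h1
    rw [LinearMap.mem_ker, LinearMap.sub_apply, sub_eq_zero] at h2
    exact h2
  · -- integrality
    intro m k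
    apply isIntegral_of_conj_memH679 L.V hℓ L.ell_mem
    intro σ
    rw [← hFeq k σ m]
    exact hFV k _
  · -- addition
    intro k
    have h1 : addPullH679 (k : M → Qb) ∈ tensImageH679 L :=
      addPull_mem_tensImageH679 hact L (hFH k)
    rw [tensImage_eq_span_of_spanH679 L (F : Set (M → Qb)) hF2] at h1
    have hrange : Set.image2 (fun g g' => tensH679 L.V M g g') (F : Set (M → Qb))
        (F : Set (M → Qb)) = Set.range fun p : ↥F × ↥F =>
          tensH679 L.V M (p.1 : M → Qb) (p.2 : M → Qb) := by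
      ext G
      constructor
      · rintro ⟨g, hg, g', hg', rfl⟩
        exact ⟨(⟨g, hg⟩, ⟨g', hg'⟩), rfl⟩
      · rintro ⟨p, rfl⟩
        exact ⟨p.1, p.1.2, p.2, p.2.2, rfl⟩
    rw [hrange, Submodule.mem_span_range_iff_exists_fun] at h1
    obtain ⟨c, hc⟩ := h1
    -- pointwise form
    have hcpt : ∀ x y : M, ∑ p : ↥F × ↥F, (c p : Qb) * ((p.1 : M → Qb) x * (p.2 : M → Qb) y)
        = (k : M → Qb) (x + y) := by
      intro x y
      have := congrFun hc (x, y)
      rw [Finset.sum_apply] at this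
      exact this
    -- the coefficients are Galois-invariant
    have hcinv : ∀ (σ : GalQ) (p : ↥F × ↥F), σ (c p : Qb) = (c p : Qb) := by
      intro σ p
      have h2 : ∀ x y : M, ∑ p : ↥F × ↥F,
          (σ (c p : Qb) - (c p : Qb)) * ((p.1 : M → Qb) x * (p.2 : M → Qb) y) = 0 := by
        intro x y
        have h3 := congrArg σ (hcpt (act σ⁻¹ x) (act σ⁻¹ y))
        rw [map_sum, ← hact.act_add, ← hFeq k σ, hA.act_inv, ← hcpt x y] at h3
        rw [← sub_eq_zero, ← Finset.sum_sub_distrib] at h3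
        rw [← h3]
        refine Finset.sum_congr rfl fun p _ => ?_
        rw [map_mul, map_mul, ← hFeq p.1 σ, ← hFeq p.2 σ, hA.act_inv, hA.act_inv]
        ring
      have h4 := tensor_indep_subtypeH679 F hind (fun p => σ (c p : Qb) - (c p : Qb)) h2 p
      exact sub_eq_zero.1 h4
    -- hence they lie in `ℤ_(ℓ)`, in particular in `Zb`
    have hcint : ∀ p : ↥F × ↥F, IsIntegral (Rl ℓ) (c p : Qb) := by
      intro p
      obtain ⟨q, hq⟩ := mem_range_of_fixedH679 (c p : Qb) fun σ => hcinv σ p
      have hqR : q ∈ Rl ℓ := mem_ratLocalizedAtH679 L.V hℓ L.ell_mem q (hq ▸ (c p).2)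
      have : (c p : Qb) = algebraMap (Rl ℓ) Qb ⟨q, hqR⟩ := hq.symm
      rw [this]
      exact isIntegral_algebraMap
    have hfinal : (fun p : M × M => (k : M → Qb) (p.1 + p.2))
        = ∑ p : ↥F × ↥F, (⟨(c p : Qb), hcint p⟩ : Zb ℓ) •
            ((fun x : M × M => (p.1 : M → Qb) x.1) * fun x : M × M => (p.2 : M → Qb) x.2) := by
      funext x
      rw [Finset.sum_apply, ← hcpt x.1 x.2]
      rfl
    rw [hfinal]
    refine Subalgebra.sum_mem _ fun p _ => Subalgebra.smul_mem _ (mul_mem ?_ ?_) _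
    · exact Algebra.subset_adjoin (Or.inl ⟨p.1, rfl⟩)
    · exact Algebra.subset_adjoin (Or.inr ⟨p.2, rfl⟩)
  · -- the tracked clause
    intro x hx k
    exact sub_mem_nonunits_of_mem_Hloc_h296 hact L K₀ hK hΨ (hFH k) x hx

end Fermat.Agent.S59.NMP.H296
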