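import Fermat.Agent.S59.NMP.H296.MaxUnrB
import Fermat.Agent.S59.NMP.H296.UnrPlus
import Fermat.Agent.S37.H697.Final
import Fermat.Agent.S19.Cont
import Fermat.Agent.S19.H15.Ord
import Fermat.Agent.S19.H435.OfModel

/-!
# S59 / NMP-LGC, leaf MAXUNR, pieces COORD⁺ and ORD⁺ (helper296)

* `coordPlus_h296` : GLOBAL Galois-equivariant integral coordinates on `J₀(N)[ℓ^e]` (good level,
  `ℓ ∤ N`) which are constant modulo `𝔪_V` on the kernel of `reductionModL V N`, for a GIVEN
  valuation ring `V ∣ ℓ`  (GR-LINK + UNR⁺; the kernel is stable under the decomposition group by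
  `S37.H697.reductionModL_decomp_ker`).
* `orderDatumOfCoord_h296`, `isHopfLattice_ordAlg_h296` : the Hopf lattice `ordAlg D` generated by
  the coordinates (the four fields are helper15's `ordAlg_*`).
* `exists_hopfLattice_redKer_h296` : a Hopf lattice `Λ` on `J₀(N)[ℓ^e]` with
  `reductionModL V N x = 0 ⟹ f x ≡ f 0 mod 𝔪_V` for all `f ∈ Λ`.
-/

set_option autoImplicit false
set_option synthInstance.maxHeartbeats 400000
set_option linter.style.haveILetI false

noncomputable section

namespace Fermat.Agent.S59.NMP.H296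

open ModularCurve AlgebraicCurve IsLocalRing
open Fermat.Agent.S19 (GalQ GoodLevel Tors torsAct torsAct_add LocalCoordDatum CoordDatum
  OrderDatum Rl Zb coordFunctions)
open Fermat.Agent.S37.Red (Qb FN kA FNk)
open scoped TensorProduct

/-- The kernel of `reductionModL V N` on the torsion is stable under the decomposition group. -/
theorem reductionModL_torsAct_eq_zero_h296 (N : ℕ) [NeZero N] (ℓ : ℕ)
    (V : ValuationSubring Qb) (hin : ReductionInputsModL V N) (e : ℕ)
    (δ : GalQ) (hδ : δ ∈ V.decompositionSubgroup ℚ) (x : Tors N ℓ e)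
    (hx : reductionModL V N (x : JZero N) = 0) :
    reductionModL V N ((torsAct N ℓ e δ x : Tors N ℓ e) : JZero N) = 0 :=
  Fermat.Agent.S37.H697.reductionModL_decomp_ker N V hin
    (Fermat.Agent.S37.H697.riemannBound_modular N) δ hδ (x : JZero N) hx

/-- **COORD⁺.**  Global coordinates on `J₀(N)[ℓ^e]`, constant modulo `𝔪_V` on the kernel of
`reductionModL V N`. -/
theorem coordPlus_h296 (N : ℕ) [NeZero N] (ℓ : ℕ) [Fact ℓ.Prime] (hℓN : ¬ ℓ ∣ N)
    (hg : GoodLevel N ℓ) (V : ValuationSubring Qb) (hV : V.LiesOverPrime ℓ) (e : ℕ)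
    [hfin : Finite (Tors N ℓ e)] :
    ∃ C : CoordDatum ℓ (Tors N ℓ e) (torsAct N ℓ e),
      ∀ x : Tors N ℓ e, reductionModL V N (x : JZero N) = 0 →
        ∀ k : C.ι, C.Φ x k - C.Φ 0 k ∈ V.nonunits := by
  have hℓ : ℓ.Prime := Fact.out
  obtain ⟨L, hLV, hL⟩ := localCoordPlus_h296 N ℓ hℓN hg V hV e
  have hin : ReductionInputsModL V N :=
    Fermat.Agent.S37.Core.rimStatement N ℓ hℓ hℓN hg V hV
  obtain ⟨C, hC⟩ := unrPlus_h296 ℓ (Tors N ℓ e) (torsAct N ℓ e)
    (Fermat.Agent.S19.contStatement N ℓ e) L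
    {x : Tors N ℓ e | reductionModL V N (x : JZero N) = 0}
    (fun δ hδ x hx => by
      rw [hLV] at hδ
      exact reductionModL_torsAct_eq_zero_h296 N ℓ V hin e δ hδ x hx)
    (fun x hx i => by
      rw [hLV]
      exact hL x hx i)
  refine ⟨C, fun x hx k => ?_⟩
  have h := hC x hx k
  rw [hLV] at h
  exact h

section Lattice

variable {ℓ : ℕ} {M : Type} [AddCommGroup M] {act : GalQ → M → M}

/-- The order datum of a coordinate datum (`S19.orderDatum_of_coordDatum`, as a definition). -/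
def orderDatumOfCoord_h296 (hadd : ∀ (σ : GalQ) (a b : M), act σ (a + b) = act σ a + act σ b)
    (C : CoordDatum ℓ M act) : OrderDatum ℓ M act where
  act_add := hadd
  gens := Set.range fun (i : C.ι) (m : M) => C.Φ m i
  equivariant := by
    rintro f ⟨i, rfl⟩ σ m
    exact C.equivariant σ m i
  integral := by
    rintro f ⟨i, rfl⟩ m
    exact C.integral m i
  separates := by
    intro m m' h
    apply C.inj
    funext i
    exact h _ ⟨i, rfl⟩
  add_mem := by
    rintro f ⟨i, rfl⟩
    refine Algebra.adjoin_mono ?_ (C.add_mem i)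
    rintro g (⟨j, rfl⟩ | ⟨j, rfl⟩)
    · exact Or.inl ⟨_, ⟨j, rfl⟩, rfl⟩
    · exact Or.inr ⟨_, ⟨j, rfl⟩, rfl⟩

/-- **ORD⁺ (lattice form).**  The algebra generated by an order datum on a finite module is a
Hopf lattice. -/
theorem isHopfLattice_ordAlg_h296 [Fact ℓ.Prime] [Finite M] (D : OrderDatum ℓ M act) :
    Fermat.Agent.S19.H435.IsHopfLattice ℓ act (Fermat.Agent.S19.H15.ordAlg D) where
  fg := Fermat.Agent.S19.H15.ordAlg_fg D
  equivariant := fun f hf => Fermat.Agent.S19.H15.ordAlg_equivariant D f hf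
  separates := Fermat.Agent.S19.H15.ordAlg_separates D
  comul_mem := by
    intro f hf
    obtain ⟨t, ht⟩ := Fermat.Agent.S19.H15.ordAlg_comul D f hf
    obtain ⟨n, a, b, rfl⟩ := Fermat.Agent.S19.H435.exists_fin_tmul t
    refine ⟨n, fun k => ((a k : Fermat.Agent.S19.H15.ordAlg D) : M → Qb),
      fun k => ((b k : Fermat.Agent.S19.H15.ordAlg D) : M → Qb),
      fun k => (a k).2, fun k => (b k).2, fun x y => ?_⟩
    have h := congrFun ht (x, y)
    rw [map_sum, Finset.sum_apply] at h
    rw [← h]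
    refine Finset.sum_congr rfl fun k _ => ?_
    exact Fermat.Agent.S19.H19.prodMap_tmul _ _ (a k) (b k) (x, y)

end Lattice

end Fermat.Agent.S59.NMP.H296
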