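import Fermat.Agent.S59.NMP.H296.MaxUnr
import Fermat.Agent.S59.NMP.H135.LgcSpec

/-!
# S59 / NMP-LGC, leaf MAXUNR — the frozen Prop `H135.MaxUnrGoodStatement`, VERBATIM (helper296)

    theorem maxUnrGood_h296 : Fermat.Agent.S59.NMP.H135.MaxUnrGoodStatement

= `maxUnr_tors_h296` (S19⁺ + connected–étale) in the vocabulary `S33.iAug` / `S33.torsSub` of the
frozen sub-interface `S59/NMP/H135/LgcSpec.lean` (helper135).
-/

set_option autoImplicit false
set_option synthInstance.maxHeartbeats 400000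

noncomputable section

namespace Fermat.Agent.S59.NMP.H296

open ModularCurve AlgebraicCurve
open Fermat.Agent.S19 (GalQ GoodLevel Tors torsAct)
open Fermat.Agent.S37.Red (Qb)

/-- **MAXUNR at good levels**, frozen shape. -/
theorem maxUnrGood_h296 : Fermat.Agent.S59.NMP.H135.MaxUnrGoodStatement := by
  intro p M _ hp hp2 hpM hgood A hA x hpx hx
  haveI : Fact p.Prime := ⟨hp⟩
  have hg : GoodLevel M p := by
    rcases hgood with h | ⟨h3, h2⟩
    · exact Or.inl h
    · exact Or.inr (Or.inl ⟨h3, h2⟩)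
  have hxT : x ∈ Submodule.torsionBy ℤ (JZero M) ((p : ℤ) ^ 1) := by
    rw [Submodule.mem_torsionBy_iff, pow_one, natCast_zsmul]
    exact hpx
  have h := maxUnr_tors_h296 M p hp2 hpM hg A hA ⟨x, hxT⟩ hx
  have key : ∀ z : Tors M p 1, z ∈ AddSubgroup.closure
      {z : Tors M p 1 | ∃ σ ∈ A.inertiaSubgroupIn ℚ, ∃ y : Tors M p 1,
        z = torsAct M p 1 σ y - y} →
      (z : JZero M) ∈ Fermat.Agent.S33.iAug (A.inertiaSubgroupIn ℚ)
        (Fermat.Agent.S33.torsSub (JZero M) p) := by
    intro z hz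
    induction hz using AddSubgroup.closure_induction with
    | mem w hw =>
      obtain ⟨σ, hσ, y, rfl⟩ := hw
      refine AddSubgroup.subset_closure ⟨σ, hσ, (y : JZero M), ?_, rfl⟩
      have hy := pow_nsmul_eq_zero_h296 M p 1 y
      rw [pow_one] at hy
      show (y : JZero M) ∈ (nsmulAddMonoidHom (α := JZero M) p).ker
      rw [AddMonoidHom.mem_ker, nsmulAddMonoidHom_apply]
      exact hy
    | zero => exact AddSubgroup.zero_mem _
    | add a b _ _ ha hb => exact AddSubgroup.add_mem _ ha hb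
    | neg a _ ha => exact AddSubgroup.neg_mem _ ha
  exact key ⟨x, hxT⟩ h

end Fermat.Agent.S59.NMP.H296
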